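import Fermat.Agent.S49.Eigen
import Fermat.Agent.S30.Eigen
import Fermat.Agent.S23
import Fermat.Prelude.Def_CuspForm_HeckeLocal

/-!
# SMO: every character of a Hecke algebra comes from a normalised eigenform
-/

set_option autoImplicit false
set_option synthInstance.maxHeartbeats 400000

namespace Fermat.Agent.SMOLib

open CuspForm ModularFormClass CongruenceSubgroup
open P2MW.S_CuspForm_intLattice_fg.W3WsD (qCoeff_add mem_intLattice_iff)
open Fermat.Agent.S49Lib (qCoeff_smul eq_zero_of_qCoeff_eq_zero)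

/-- the `n`-th `q`-coefficient as a linear form -/
noncomputable def IND_qc (N : ℕ) (n : ℕ) : CuspForm (Gamma0 N) 2 →ₗ[ℂ] ℂ where
  toFun f := qCoeff ⇑f n
  map_add' f g := qCoeff_add f g n
  map_smul' c f := qCoeff_smul c f n

/-- (IND) a `ℤ`-basis of the integral lattice is `ℂ`-linearly independent -/
theorem sum_smul_ne_zero (N : ℕ) [NeZero N] {r : ℕ} (b : Module.Basis (Fin r) ℤ ↥(intLattice N 2))
    (c : Fin r → ℂ) (hc : c ≠ 0) :
    ∑ i, c i • ((b i : ↥(intLattice N 2)) : CuspForm (Gamma0 N) 2) ≠ 0 := by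
  intro h0
  obtain ⟨i₀, hi₀⟩ : ∃ i, c i ≠ 0 := by
    by_contra hcon
    push Not at hcon
    exact hc (funext hcon)
  obtain ⟨φ, hφ⟩ : ∃ φ : Module.Dual ℚ ℂ, φ (c i₀) ≠ 0 := by
    by_contra hcon
    push Not at hcon
    exact hi₀ ((Module.forall_dual_apply_eq_zero_iff ℚ (c i₀)).1 hcon)
  have hint : ∀ (i : Fin r) (n : ℕ), ∃ m : ℤ,
      qCoeff ⇑((b i : ↥(intLattice N 2)) : CuspForm (Gamma0 N) 2) n = (m : ℂ) :=
    fun i => (mem_intLattice_iff _).1 (b i).2
  choose A hA using hint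
  have h1 : ∀ n, ∑ i, c i * (A i n : ℂ) = 0 := by
    intro n
    have := congrArg (IND_qc N n) h0
    rw [map_sum, map_zero] at this
    rw [← this]
    refine Finset.sum_congr rfl fun i _ => ?_
    rw [map_smul, smul_eq_mul]
    congr 1
    exact (hA i n).symm
  have h2 : ∀ n, ∑ i, φ (c i) * (A i n : ℚ) = 0 := by
    intro n
    have := congrArg φ (h1 n)
    rw [map_sum, map_zero] at this
    rw [← this]
    refine Finset.sum_congr rfl fun i _ => ?_
    have e : c i * (A i n : ℂ) = (A i n : ℚ) • c i := by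
      rw [Algebra.smul_def, mul_comm]
      simp
    rw [e, map_smul, smul_eq_mul, mul_comm]
  obtain ⟨d, hd⟩ := IsLocalization.exist_integer_multiples_of_finite (nonZeroDivisors ℤ)
    (fun i => φ (c i))
  choose z hz using hd
  have hd0 : ((d : ℤ) : ℚ) ≠ 0 := by
    have := nonZeroDivisors.ne_zero d.2
    exact_mod_cast this
  have hz' : ∀ i, (z i : ℚ) = (d : ℤ) * φ (c i) := by
    intro i
    have := hz i
    simpa [Algebra.smul_def] using this
  have hz0 : z i₀ ≠ 0 := by
    intro h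
    have := hz' i₀
    rw [h, Int.cast_zero] at this
    exact (mul_ne_zero hd0 hφ) this.symm
  have h3 : ∀ n, ∑ i, z i * A i n = 0 := by
    intro n
    have : ((∑ i, z i * A i n : ℤ) : ℚ) = 0 := by
      push_cast
      simp only [hz', mul_assoc]
      rw [← Finset.mul_sum, h2 n, mul_zero]
    exact_mod_cast this
  have h4 : ∑ i, z i • b i = 0 := by
    apply Subtype.ext
    apply eq_zero_of_qCoeff_eq_zero
    intro n
    have e : ((∑ i, z i • b i : ↥(intLattice N 2)) : CuspForm (Gamma0 N) 2) =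
        ∑ i, (z i : ℂ) • ((b i : ↥(intLattice N 2)) : CuspForm (Gamma0 N) 2) := by
      rw [AddSubmonoidClass.coe_finset_sum]
      refine Finset.sum_congr rfl fun i _ => ?_
      rw [Int.cast_smul_eq_zsmul]
      rfl
    rw [e]
    change IND_qc N n _ = 0
    rw [map_sum]
    have : ((∑ i, z i * A i n : ℤ) : ℂ) = 0 := by rw [h3 n, Int.cast_zero]
    rw [← this]
    push_cast
    refine Finset.sum_congr rfl fun i _ => ?_
    rw [map_smul, smul_eq_mul]
    congr 1
    exact hA i n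
  exact hz0 (Fintype.linearIndependent_iff.1 b.linearIndependent z h4 i₀)

/-- (EV1) every character of a Hecke algebra occurs in the space of cusp forms -/
theorem exists_eigenvector_of_char (N : ℕ) [NeZero N] (S : Set ℕ)
    (χ : heckeAlgebra N 2 S →+* ℂ) :
    ∃ v : CuspForm (Gamma0 N) 2, v ≠ 0 ∧ ∀ t : heckeAlgebra N 2 S,
      (t : Module.End ℂ (CuspForm (Gamma0 N) 2)) v = χ t • v := by
  classical
  haveI := intLattice.moduleFinite N
  haveI := intLattice.moduleFree N
  let b := Module.finBasis ℤ ↥(intLattice N 2)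
  let Θ : heckeAlgebra N 2 S →+* Matrix (Fin (Module.finrank ℤ ↥(intLattice N 2)))
      (Fin (Module.finrank ℤ ↥(intLattice N 2))) ℤ :=
    (LinearMap.toMatrixAlgEquiv b).toRingEquiv.toRingHom.comp (latticeActionHom N S)
  have hΘ : Function.Injective Θ :=
    (LinearMap.toMatrixAlgEquiv b).injective.comp
      (latticeActionHom_injective N S (Fermat.Agent.S23.result N))
  obtain ⟨c, hc, hev⟩ := Fermat.Agent.S30Lib.exists_eigenvector Θ hΘ χ
  refine ⟨∑ i, c i • ((b i : ↥(intLattice N 2)) : CuspForm (Gamma0 N) 2),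
    sum_smul_ne_zero N b c hc, fun t => ?_⟩
  have hb : ∀ j, (t : Module.End ℂ (CuspForm (Gamma0 N) 2))
      ((b j : ↥(intLattice N 2)) : CuspForm (Gamma0 N) 2) =
      ∑ i, (Θ t i j : ℂ) • ((b i : ↥(intLattice N 2)) : CuspForm (Gamma0 N) 2) := by
    intro j
    have e1 := b.sum_repr (latticeActionHom N S t (b j))
    have e2 := congrArg (fun x : ↥(intLattice N 2) => (x : CuspForm (Gamma0 N) 2)) e1
    simp only [AddSubmonoidClass.coe_finset_sum] at e2
    have e3 : ((latticeActionHom N S t (b j) : ↥(intLattice N 2)) : CuspForm (Gamma0 N) 2) =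
        (t : Module.End ℂ (CuspForm (Gamma0 N) 2))
          ((b j : ↥(intLattice N 2)) : CuspForm (Gamma0 N) 2) := rfl
    rw [← e3, ← e2]
    refine Finset.sum_congr rfl fun i _ => ?_
    rw [Int.cast_smul_eq_zsmul]
    have e4 : Θ t i j = b.repr (latticeActionHom N S t (b j)) i :=
      LinearMap.toMatrixAlgEquiv_apply b (latticeActionHom N S t) i j
    rw [e4]
    rfl
  rw [map_sum, Finset.smul_sum]
  simp only [map_smul, hb, Finset.smul_sum, smul_smul]
  rw [Finset.sum_comm]
  refine Finset.sum_congr rfl fun i _ => ?_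
  rw [← Finset.sum_smul]
  congr 1
  have := congrFun (hev t) i
  simp only [Matrix.mulVec, dotProduct, Matrix.map_apply, Pi.smul_apply, smul_eq_mul,
    eq_intCast] at this
  rw [← this]
  exact Finset.sum_congr rfl fun j _ => mul_comm _ _

/-- (EV2) -/
theorem exists_eigenform_of_char (N : ℕ) [NeZero N] (S : Set ℕ)
    (χ : heckeAlgebra N 2 S →+* ℂ) :
    ∃ h : CuspForm (Gamma0 N) 2, h.IsNormalizedEigenform ∧
      ∀ (ℓ : ℕ) (hℓ : ℓ.Prime) (hℓN : ¬ ℓ ∣ N) (hℓS : ℓ ∉ S),
        qCoeff h ℓ = χ (heckeAlgebra.T hℓ hℓN hℓS) := by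
  classical
  have hfin : FiniteDimensional ℂ (CuspForm (Gamma0 N) 2) :=
    FiniteDimensional.of_injective _ (Fermat.Agent.S23Lib.coeffMap_injective N 2)
  obtain ⟨v₀, hv₀, hev₀⟩ := exists_eigenvector_of_char N S χ
  let W : Submodule ℂ (CuspForm (Gamma0 N) 2) :=
    { carrier := {v | ∀ t : heckeAlgebra N 2 S,
        (t : Module.End ℂ (CuspForm (Gamma0 N) 2)) v = χ t • v}
      add_mem' := fun {a b} ha hb t => by
        rw [map_add, ha t, hb t, smul_add]
      zero_mem' := fun t => by rw [map_zero, smul_zero]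
      smul_mem' := fun c a ha t => by
        rw [map_smul, ha t, smul_comm] }
  have hW : W ≠ ⊥ := fun h => hv₀ ((Submodule.mem_bot ℂ).1 (h ▸ (show v₀ ∈ W from hev₀)))
  have hle : heckeAlgebra N 2 S ≤ heckeAlgebra N 2 (∅ : Set ℕ) :=
    heckeAlgebra_mono (Set.empty_subset S)
  let 𝒜 : Set (Module.End ℂ (CuspForm (Gamma0 N) 2)) :=
    ((heckeAlgebra N 2 (∅ : Set ℕ) : Subalgebra ℤ _) : Set _)
  have hcomm : ∀ A ∈ 𝒜, ∀ B ∈ 𝒜, Commute A B := by
    intro A hA B hB
    have := mul_comm (⟨A, hA⟩ : heckeAlgebra N 2 (∅ : Set ℕ)) ⟨B, hB⟩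
    exact congrArg Subtype.val this
  have hinv : ∀ T ∈ 𝒜, ∀ w ∈ W, T w ∈ W := by
    intro T hT w hw t
    have h1 : Commute (t : Module.End ℂ (CuspForm (Gamma0 N) 2)) T := hcomm _ (hle t.2) _ hT
    have h2 := congrArg (fun F : Module.End ℂ (CuspForm (Gamma0 N) 2) => F w) h1.eq
    simp only [Module.End.mul_apply] at h2
    rw [h2, hw t, map_smul]
  obtain ⟨v, hvW, hv0, hv⟩ := Fermat.Agent.S49Lib.exists_common_eigenvector 𝒜 hcomm W hW hinv
  have hv' : ∀ t : heckeAlgebra N 2 (∅ : Set ℕ), ∃ μ : ℂ,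
      (t : Module.End ℂ (CuspForm (Gamma0 N) 2)) v = μ • v := fun t => hv _ t.2
  choose ψ hψ using hv'
  have hinj : Function.Injective fun c : ℂ => c • v := smul_left_injective ℂ hv0
  let ψ' : heckeAlgebra N 2 (∅ : Set ℕ) →+* ℂ :=
    { toFun := ψ
      map_one' := hinj (by
        simp only [← hψ]
        simp)
      map_mul' := fun s t => hinj (by
        simp only [← hψ]
        rw [Subalgebra.coe_mul, Module.End.mul_apply, hψ t, map_smul, hψ s, smul_smul, mul_comm])
      map_zero' := hinj (by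
        simp only [← hψ]
        simp)
      map_add' := fun s t => hinj (by
        simp only [← hψ, add_smul]
        simp) }
  obtain ⟨g, hg, hgc⟩ :=
    Fermat.Agent.S49Lib.exists_normalizedEigenform_of_eigenvector v hv0 ψ' hψ
  refine ⟨g, hg, fun ℓ hℓ hℓN hℓS => ?_⟩
  rw [hgc ℓ hℓ hℓN]
  apply hinj
  change ψ _ • v = χ _ • v
  rw [← hψ, ← hvW (heckeAlgebra.T hℓ hℓN hℓS)]
  rfl

end Fermat.Agent.SMOLib
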