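import Fermat.Agent.SMO.Compare
import Fermat.Agent.SMO.Eigenvector
import Fermat.Agent.S36.Defs
import Fermat.Prelude.Def_CuspForm_Newforms

/-!
# SMO: the killer polynomial
-/

set_option autoImplicit false
set_option synthInstance.maxHeartbeats 400000

namespace Fermat.Agent.SMOLib

open CuspForm ModularFormClass CongruenceSubgroup

/-- the primes outside `S` -/
abbrev PI (S : Finset ℕ) : Type := {ℓ : ℕ // ℓ.Prime ∧ ℓ ∉ S}

/-- evaluation of a polynomial in the variables `X_ℓ`, `ℓ ∉ S`, at the Hecke operators `T_ℓ` of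
level `N` -/
noncomputable def evT (N : ℕ) [NeZero N] (S : Finset ℕ) (hNS : ∀ q : ℕ, q.Prime → q ∣ N → q ∈ S) :
    MvPolynomial (PI S) ℤ →ₐ[ℤ] heckeAlgebra N 2 (↑S : Set ℕ) :=
  MvPolynomial.aeval (fun ℓ : PI S => heckeAlgebra.T ℓ.2.1 (fun h => ℓ.2.2 (hNS _ ℓ.2.1 h))
    (by simpa using ℓ.2.2))

theorem evT_X (N : ℕ) [NeZero N] (S : Finset ℕ) (hNS : ∀ q : ℕ, q.Prime → q ∣ N → q ∈ S)
    (ℓ : PI S) : evT N S hNS (MvPolynomial.X ℓ) =
      heckeAlgebra.T ℓ.2.1 (fun h => ℓ.2.2 (hNS _ ℓ.2.1 h)) (by simpa using ℓ.2.2) := by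
  rw [evT, MvPolynomial.aeval_X]

/-- (SUR) -/
theorem evT_surjective (N : ℕ) [NeZero N] (S : Finset ℕ)
    (hNS : ∀ q : ℕ, q.Prime → q ∣ N → q ∈ S) : Function.Surjective (evT N S hNS) := by
  rintro ⟨t, ht⟩
  have key : heckeAlgebra N 2 (↑S : Set ℕ) ≤
      ((heckeAlgebra N 2 (↑S : Set ℕ)).val.comp (evT N S hNS)).range := by
    apply Algebra.adjoin_le
    rintro T (⟨ℓ, hℓ, hℓN, hℓS, rfl⟩ | ⟨q, hqN, hq, hqS, rfl⟩)
    · refine ⟨MvPolynomial.X ⟨ℓ, hℓ, by simpa using hℓS⟩, ?_⟩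
      change ((evT N S hNS (MvPolynomial.X ⟨ℓ, hℓ, by simpa using hℓS⟩) :
        heckeAlgebra N 2 (↑S : Set ℕ)) : Module.End ℂ (CuspForm (Gamma0 N) 2)) = _
      rw [evT_X]
      rfl
    · exact absurd (hNS q hq hqN) (by simpa using hqS)
  obtain ⟨P, hP⟩ := key ht
  exact ⟨P, Subtype.ext hP⟩

/-- (KIL) **the killer polynomial** -/
theorem exists_killer {M : ℕ} [NeZero M] {g : CuspForm (Gamma0 M) 2} (hg : g.IsNewform)
    (S : Finset ℕ) (hMS : ∀ q : ℕ, q.Prime → q ∣ M → q ∈ S)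
    (chig : heckeAlgebra M 2 (↑S : Set ℕ) →+* ℂ)
    (hchig : ∀ (ℓ : ℕ) (hℓ : ℓ.Prime) (hℓM : ¬ ℓ ∣ M) (hℓS : ℓ ∉ (↑S : Set ℕ)),
      chig (heckeAlgebra.T hℓ hℓM hℓS) = qCoeff g ℓ)
    (M' : ℕ) [NeZero M'] (hM' : M' ∣ M) (hne : M' ≠ M) :
    ∃ P : MvPolynomial (PI S) ℤ,
      evT M' S (fun q hq h => hMS q hq (h.trans hM')) P = 0 ∧ chig (evT M S hMS P) ≠ 0 := by
  by_contra hcon
  push Not at hcon
  have hM'S : ∀ q : ℕ, q.Prime → q ∣ M' → q ∈ S := fun q hq h => hMS q hq (h.trans hM')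
  let e' : MvPolynomial (PI S) ℤ →+* heckeAlgebra M' 2 (↑S : Set ℕ) := (evT M' S hM'S).toRingHom
  let f : MvPolynomial (PI S) ℤ →+* ℂ := chig.comp (evT M S hMS).toRingHom
  have hsur : Function.Surjective e' := evT_surjective M' S hM'S
  have hker : RingHom.ker e' ≤ RingHom.ker f := fun P hP => hcon P hP
  let χ' : heckeAlgebra M' 2 (↑S : Set ℕ) →+* ℂ := RingHom.liftOfSurjective e' hsur ⟨f, hker⟩
  have hχ' : ∀ P, χ' (e' P) = f P := fun P =>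
    RingHom.liftOfRightInverse_comp_apply e' _ (Function.rightInverse_surjInv hsur) ⟨f, hker⟩ P
  obtain ⟨h, hh, hhc⟩ := exists_eigenform_of_char M' (↑S : Set ℕ) χ'
  have h1 : ∀ ℓ : ℕ, ℓ.Prime → ℓ ∉ S → qCoeff h ℓ = qCoeff g ℓ := by
    intro ℓ hℓ hℓS
    have hℓS' : ℓ ∉ (↑S : Set ℕ) := by simpa using hℓS
    have hℓM : ¬ ℓ ∣ M := fun hd => hℓS (hMS ℓ hℓ hd)
    have hℓM' : ¬ ℓ ∣ M' := fun hd => hℓS (hM'S ℓ hℓ hd)
    rw [hhc ℓ hℓ hℓM' hℓS', ← hchig ℓ hℓ hℓM hℓS']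
    have e1 : e' (MvPolynomial.X ⟨ℓ, hℓ, hℓS⟩) = heckeAlgebra.T hℓ hℓM' hℓS' :=
      evT_X M' S hM'S ⟨ℓ, hℓ, hℓS⟩
    have e2 : f (MvPolynomial.X ⟨ℓ, hℓ, hℓS⟩) = chig (heckeAlgebra.T hℓ hℓM hℓS') :=
      congrArg chig (evT_X M S hMS ⟨ℓ, hℓ, hℓS⟩)
    rw [← e1, hχ', e2]
  refine hg.2 M' hM' hne ⟨h, hh, fun ℓ hℓ hℓM => ?_⟩
  exact qCoeff_eq_of_forall_notMem hh hg.1 S h1 hℓ (fun hd => hℓM (hd.trans hM')) hℓM

/-- (FIN) helper24's interface -/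
theorem smoStatement : Fermat.Agent.S36Lib.SMOStatement := by
  intro M _ g hg S hMS chig hchig q hq hqM _
  have hdvd : M / q ∣ M := Nat.div_dvd_of_dvd hqM
  have hne : M / q ≠ M := (Nat.div_lt_self (Nat.pos_of_ne_zero (NeZero.ne M)) hq.one_lt).ne
  obtain ⟨P, hP0, hP1⟩ := exists_killer hg S hMS chig hchig (M / q) hdvd hne
  refine ⟨evT M S hMS P, ⟨MvPolynomial.rename Subtype.val P, ?_, ?_, ?_⟩, hP1⟩
  · intro ℓ hℓ
    classical
    have := MvPolynomial.vars_rename (Subtype.val : PI S → ℕ) P hℓ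
    rw [Finset.mem_image] at this
    obtain ⟨x, -, rfl⟩ := this
    exact ⟨x.2.1, fun h => x.2.2 (hMS _ x.2.1 h)⟩
  · rw [MvPolynomial.aeval_rename]
    have : (MvPolynomial.aeval (Fermat.Agent.S36Lib.evT M ∘ Subtype.val) :
        MvPolynomial (PI S) ℤ →ₐ[ℤ] _) =
        (Subalgebra.inclusion (Fermat.Agent.S36Lib.heckeAlgebra_le M S hMS)).comp
          (evT M S hMS) := by
      apply MvPolynomial.algHom_ext
      intro x
      rw [MvPolynomial.aeval_X, AlgHom.comp_apply, evT_X, Function.comp_apply,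
        Fermat.Agent.S36Lib.evT_of_prime M x.2.1 (fun h => x.2.2 (hMS _ x.2.1 h))]
      rfl
    rw [this]
    rfl
  · rw [MvPolynomial.aeval_rename]
    have hS' : ∀ r : ℕ, r.Prime → r ∣ M / q → r ∈ S := fun r hr h => hMS r hr (h.trans hdvd)
    have : (MvPolynomial.aeval (Fermat.Agent.S36Lib.evT (M / q) ∘ Subtype.val) :
        MvPolynomial (PI S) ℤ →ₐ[ℤ] _) =
        (Subalgebra.inclusion (Fermat.Agent.S36Lib.heckeAlgebra_le (M / q) S hS')).comp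
          (evT (M / q) S hS') := by
      apply MvPolynomial.algHom_ext
      intro x
      rw [MvPolynomial.aeval_X, AlgHom.comp_apply, evT_X, Function.comp_apply,
        Fermat.Agent.S36Lib.evT_of_prime (M / q) x.2.1 (fun h => x.2.2 (hS' _ x.2.1 h))]
      rfl
    rw [this, AlgHom.comp_apply, hP0, map_zero]

end Fermat.Agent.SMOLib
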