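import Mathlib

/-!
# SMO: an algebraic integer divisible by all powers of `p` is zero
-/

set_option autoImplicit false

namespace Fermat.Agent.SMOLib

/-- a rational integer divisible by `m` in the ring of all algebraic integers is divisible by `m`
in `ℤ` -/
theorem DIV_int_dvd {m c : ℤ} (hm : m ≠ 0)
    (h : (m : integralClosure ℤ ℂ) ∣ (c : integralClosure ℤ ℂ)) : m ∣ c := by
  obtain ⟨y, hy⟩ := h
  have hyC : (c : ℂ) = (m : ℂ) * (y : ℂ) := by
    have := congrArg (fun z : integralClosure ℤ ℂ => (z : ℂ)) hy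
    simpa using this
  have hmC : (m : ℂ) ≠ 0 := by exact_mod_cast hm
  have hyq : (y : ℂ) = algebraMap ℚ ℂ ((c : ℚ) / (m : ℚ)) := by
    rw [map_div₀]
    simp only [map_intCast]
    field_simp
    rw [hyC]; ring
  have hint : IsIntegral ℤ ((c : ℚ) / (m : ℚ)) := by
    have h1 : IsIntegral ℤ (algebraMap ℚ ℂ ((c : ℚ) / (m : ℚ))) := hyq ▸ y.2
    exact (isIntegral_algebraMap_iff (algebraMap ℚ ℂ).injective).1 h1
  obtain ⟨z, hz⟩ := IsIntegrallyClosed.isIntegral_iff.1 hint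
  refine ⟨z, ?_⟩
  have hmQ : (m : ℚ) ≠ 0 := by exact_mod_cast hm
  have : (c : ℚ) = (m : ℚ) * (z : ℚ) := by
    have hz' : (z : ℚ) = (c : ℚ) / (m : ℚ) := by simpa using hz
    rw [hz']; field_simp
  exact_mod_cast this

/-- (DIV) -/
theorem eq_zero_of_forall_pow_dvd {p : ℕ} (hp : p.Prime) (x : integralClosure ℤ ℂ)
    (h : ∀ n : ℕ, (p : integralClosure ℤ ℂ) ^ n ∣ x) : x = 0 := by
  by_contra hx
  have hint : IsIntegral ℤ x := by
    have := x.2
    exact (isIntegral_algebraMap_iff (A := integralClosure ℤ ℂ) (B := ℂ)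
      Subtype.val_injective).1 this
  set c₀ : ℤ := (minpoly ℤ x).coeff 0 with hc₀
  have hc₀ne : c₀ ≠ 0 := by
    have hintC : IsIntegral ℤ (x : ℂ) := x.2
    have e1 : minpoly ℤ (x : ℂ) = minpoly ℤ x :=
      minpoly.algebraMap_eq (A := ℤ) (B := integralClosure ℤ ℂ) (B' := ℂ) Subtype.val_injective x
    have e2 : minpoly ℚ (x : ℂ) = (minpoly ℤ (x : ℂ)).map (algebraMap ℤ ℚ) :=
      minpoly.isIntegrallyClosed_eq_field_fractions' ℚ hintC
    have hxC : (x : ℂ) ≠ 0 := fun h0 => hx (Subtype.ext h0)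
    have e3 := minpoly.coeff_zero_ne_zero (A := ℚ) hintC.tower_top hxC
    rw [e2, e1, Polynomial.coeff_map] at e3
    intro h0
    apply e3
    rw [← hc₀, h0, map_zero]
  -- `x ∣ c₀`
  have hdvd : x ∣ (c₀ : integralClosure ℤ ℂ) := by
    have h1 := minpoly.aeval ℤ x
    rw [← Polynomial.divX_mul_X_add (minpoly ℤ x), map_add, map_mul, Polynomial.aeval_X,
      Polynomial.aeval_C] at h1
    refine ⟨-(Polynomial.aeval x (minpoly ℤ x).divX), ?_⟩
    have h2 : (c₀ : integralClosure ℤ ℂ) = algebraMap ℤ _ ((minpoly ℤ x).coeff 0) := by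
      simp [hc₀]
    rw [h2]
    linear_combination h1
  have hall : ∀ n : ℕ, (p : ℤ) ^ n ∣ c₀ := by
    intro n
    apply DIV_int_dvd (pow_ne_zero _ (by exact_mod_cast hp.ne_zero))
    push_cast
    exact (h n).trans hdvd
  -- contradiction
  have hfin := Int.natAbs_pos.2 hc₀ne
  have h2 : p ^ c₀.natAbs ∣ c₀.natAbs := by
    have := hall c₀.natAbs
    have := Int.natAbs_dvd_natAbs.2 this
    simpa [Int.natAbs_pow] using this
  have h3 := Nat.le_of_dvd hfin h2
  have h4 : c₀.natAbs < p ^ c₀.natAbs := Nat.lt_pow_self hp.one_lt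
  omega

end Fermat.Agent.SMOLib
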