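import Fermat.Agent.S31.Unipotent
import Fermat.Agent.ES.Trunk
import Fermat.Agent.Lib.FrobeniusExists
import Fermat.Agent.S29.EigenChar
import Fermat.Agent.SMO.Div

/-!
# SMO: strong multiplicity one at the good primes
-/

set_option autoImplicit false
set_option synthInstance.maxHeartbeats 400000

namespace Fermat.Agent.SMOLib

open CuspForm ModularFormClass CongruenceSubgroup
open Fermat.Agent.S31Lib Fermat.Agent.S53Lib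
open Fermat.Agent.ESLib (TT0 IsESData)

/-- one level: the coefficient `a_{ℓ₀}` is determined modulo `p ^ n` by a Newton sum at `ℓ`. -/
theorem CMP_one {N : ℕ} [NeZero N] {g : CuspForm (Gamma0 N) 2} (hg : g.IsNormalizedEigenform)
    {p : ℕ} (S₀ : Finset ℕ) (hTR : TraceRigid p N S₀)
    (hNS : ∀ q : ℕ, q.Prime → q ∣ N → q ∈ S₀) (n : ℕ) :
    ∃ U : Subgroup GQ, IsOpen (U : Set GQ) ∧ U.Normal ∧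
      ∀ (ℓ₁ ℓ₂ : ℕ), ℓ₁.Prime → ℓ₂.Prime → ℓ₁ ∉ S₀ → ℓ₂ ∉ S₀ →
      ∀ (A₁ A₂ : ValuationSubring (AlgebraicClosure ℚ)) (τ₁ τ₂ : GQ),
      A₁.LiesOverPrime ℓ₁ → A₂.LiesOverPrime ℓ₂ → A₁.IsFrobeniusAt τ₁ ℓ₁ →
      A₂.IsFrobeniusAt τ₂ ℓ₂ → ∀ k : ℕ, τ₁⁻¹ * τ₂ ^ k ∈ U →
      ∃ t : integralClosure ℤ ℂ,
        qCoeff g ℓ₁ - newton (qCoeff g ℓ₂) (ℓ₂ : ℂ) k = (p : ℂ) ^ n * (t : ℂ) := by
  obtain ⟨lam, hlam⟩ := Fermat.Agent.S29Lib.exists_eigenChar hg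
  obtain ⟨U, hUo, hUn, hU⟩ := hTR n
  refine ⟨U, hUo, hUn, ?_⟩
  intro ℓ₁ ℓ₂ h₁ h₂ hS₁ hS₂ A₁ A₂ τ₁ τ₂ hA₁ hA₂ hτ₁ hτ₂ k hk
  have hN₁ : ¬ ℓ₁ ∣ N := fun h => hS₁ (hNS _ h₁ h)
  have hN₂ : ¬ ℓ₂ ∣ N := fun h => hS₂ (hNS _ h₂ h)
  have hS₁' : ℓ₁ ∉ (↑S₀ : Set ℕ) := by simpa using hS₁
  have hS₂' : ℓ₂ ∉ (↑S₀ : Set ℕ) := by simpa using hS₂
  obtain ⟨t, ht⟩ := hU ℓ₁ ℓ₂ h₁ h₂ hN₁ hN₂ hS₁' hS₂' A₁ A₂ τ₁ τ₂ hA₁ hA₂ hτ₁ hτ₂ 1 k ℓ₂ h₂ hS₂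
    A₂ hA₂ 1 (Subgroup.one_mem _) (by simpa using hk)
  let f : heckeAlgebra N 2 (↑S₀ : Set ℕ) →+* ℂ :=
    ((algebraMap (integralClosure ℤ ℂ) ℂ).comp lam).comp (incT hNS)
  have hf : ∀ (ℓ : ℕ) (hℓ : ℓ.Prime) (hℓN : ¬ ℓ ∣ N) (hℓS : ℓ ∉ (↑S₀ : Set ℕ)),
      f (heckeAlgebra.T hℓ hℓN hℓS) = qCoeff g ℓ := fun ℓ hℓ hℓN hℓS => hlam ℓ hℓ hℓN
  refine ⟨lam (incT hNS t), ?_⟩
  have := congrArg f ht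
  rw [map_sub, map_newton, map_newton, map_mul, map_pow, map_natCast, map_natCast, map_natCast,
    hf, hf, newton_one] at this
  exact this

/-- (CMP) strong multiplicity one at the good primes -/
theorem qCoeff_eq_of_forall_notMem {N₁ N₂ : ℕ} [NeZero N₁] [NeZero N₂]
    {g : CuspForm (Gamma0 N₁) 2} {h : CuspForm (Gamma0 N₂) 2}
    (hg : g.IsNormalizedEigenform) (hh : h.IsNormalizedEigenform) (S : Finset ℕ)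
    (hS : ∀ ℓ : ℕ, ℓ.Prime → ℓ ∉ S → qCoeff g ℓ = qCoeff h ℓ)
    {ℓ₀ : ℕ} (hℓ₀ : ℓ₀.Prime) (h1 : ¬ ℓ₀ ∣ N₁) (h2 : ¬ ℓ₀ ∣ N₂) :
    qCoeff g ℓ₀ = qCoeff h ℓ₀ := by
  classical
  -- an auxiliary prime
  obtain ⟨p, hp, hpℓ⟩ : ∃ p : ℕ, p.Prime ∧ p ≠ ℓ₀ := by
    by_cases h : ℓ₀ = 2
    · exact ⟨3, Nat.prime_three, by omega⟩
    · exact ⟨2, Nat.prime_two, fun h' => h h'.symm⟩
  haveI : Fact p.Prime := ⟨hp⟩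
  set S₀ : Finset ℕ := N₁.primeFactors ∪ N₂.primeFactors ∪ {p} with hS₀
  have hN₁S : ∀ q : ℕ, q.Prime → q ∣ N₁ → q ∈ S₀ := fun q hq hqN => by
    simp only [hS₀, Finset.mem_union, Nat.mem_primeFactors, Finset.mem_singleton]
    exact Or.inl (Or.inl ⟨hq, hqN, NeZero.ne _⟩)
  have hN₂S : ∀ q : ℕ, q.Prime → q ∣ N₂ → q ∈ S₀ := fun q hq hqN => by
    simp only [hS₀, Finset.mem_union, Nat.mem_primeFactors, Finset.mem_singleton]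
    exact Or.inl (Or.inr ⟨hq, hqN, NeZero.ne _⟩)
  have hpS : p ∈ S₀ := by simp [hS₀]
  have hℓ₀S : ℓ₀ ∉ S₀ := by
    simp only [hS₀, Finset.mem_union, Nat.mem_primeFactors, Finset.mem_singleton, not_or]
    exact ⟨⟨fun h => h1 h.2.1, fun h => h2 h.2.1⟩, fun h => hpℓ h.symm⟩
  obtain ⟨r₁, Θ₁, ρ₁, hES₁⟩ := Fermat.Agent.ESLib.exists_esData N₁ p
  obtain ⟨r₂, Θ₂, ρ₂, hES₂⟩ := Fermat.Agent.ESLib.exists_esData N₂ p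
  have hTR₁ : TraceRigid p N₁ S₀ := traceRigid_of_isESData hp hpS hN₁S hES₁
  have hTR₂ : TraceRigid p N₂ S₀ := traceRigid_of_isESData hp hpS hN₂S hES₂
  obtain ⟨A₀, τ₀, hA₀, hτ₀⟩ := Fermat.Agent.FrobLib.exists_place_and_frobenius hℓ₀
  -- integrality of the two coefficients
  obtain ⟨lam₁, hlam₁⟩ := Fermat.Agent.S29Lib.exists_eigenChar hg
  obtain ⟨lam₂, hlam₂⟩ := Fermat.Agent.S29Lib.exists_eigenChar hh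
  set x : integralClosure ℤ ℂ :=
    lam₁ (heckeAlgebra.T hℓ₀ h1 h1) - lam₂ (heckeAlgebra.T hℓ₀ h2 h2) with hx
  have hxC : (x : ℂ) = qCoeff g ℓ₀ - qCoeff h ℓ₀ := by
    rw [hx, ← hlam₁ ℓ₀ hℓ₀ h1, ← hlam₂ ℓ₀ hℓ₀ h2]
    rfl
  have hx0 : x = 0 := by
    refine eq_zero_of_forall_pow_dvd hp x fun n => ?_
    obtain ⟨U₁, hU₁o, hU₁n, hU₁⟩ := CMP_one hg S₀ hTR₁ hN₁S n
    obtain ⟨U₂, hU₂o, hU₂n, hU₂⟩ := CMP_one hh S₀ hTR₂ hN₂S n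
    obtain ⟨ℓ, A, τ, k, -, hℓ, hℓS, hA, hτ, hk, -⟩ :=
      weakCheb (U₁ ⊓ U₂) (hU₁o.inter hU₂o) inferInstance τ₀ (S ∪ S₀)
    have hℓS1 : ℓ ∉ S := fun h => hℓS (Finset.mem_union_left _ h)
    have hℓS0 : ℓ ∉ S₀ := fun h => hℓS (Finset.mem_union_right _ h)
    obtain ⟨t₁, ht₁⟩ := hU₁ ℓ₀ ℓ hℓ₀ hℓ hℓ₀S hℓS0 A₀ A τ₀ τ hA₀ hA hτ₀ hτ k hk.1
    obtain ⟨t₂, ht₂⟩ := hU₂ ℓ₀ ℓ hℓ₀ hℓ hℓ₀S hℓS0 A₀ A τ₀ τ hA₀ hA hτ₀ hτ k hk.2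
    refine ⟨t₁ - t₂, Subtype.ext ?_⟩
    rw [hxC]
    have e : ((((p : integralClosure ℤ ℂ) ^ n * (t₁ - t₂) : integralClosure ℤ ℂ)) : ℂ) =
        (p : ℂ) ^ n * (t₁ : ℂ) - (p : ℂ) ^ n * (t₂ : ℂ) := by
      push_cast
      ring
    rw [e, ← ht₁, ← ht₂, hS ℓ hℓ hℓS1]
    ring
  rw [← sub_eq_zero, ← hxC, hx0]
  rfl

end Fermat.Agent.SMOLib
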